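import Mathlib

set_option autoImplicit false

namespace Fermat.Agent.S22

/-- The subalgebra of endomorphisms whose transpose preserves a given `ℤ`-lattice of functionals. -/
def stabSubalgebra {V : Type*} [AddCommGroup V] [Module ℂ V] (M : Submodule ℤ (V →ₗ[ℂ] ℂ)) :
    Subalgebra ℤ (Module.End ℂ V) where
  carrier := {t | ∀ l ∈ M, l ∘ₗ t ∈ M}
  mul_mem' := by
    intro a b ha hb l hl
    have : l ∘ₗ (a * b) = (l ∘ₗ a) ∘ₗ b := by
      ext v; simp
    rw [this]
    exact hb _ (ha _ hl)
  add_mem' := by
    intro a b ha hb l hl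
    rw [LinearMap.comp_add]
    exact M.add_mem (ha _ hl) (hb _ hl)
  algebraMap_mem' := by
    intro r l hl
    have : l ∘ₗ (algebraMap ℤ (Module.End ℂ V) r) = r • l := by
      ext v
      simp [Algebra.algebraMap_eq_smul_one]
    rw [this]
    exact M.smul_mem r hl

theorem finite_of_lattice {V : Type*} [AddCommGroup V] [Module ℂ V] (G : Set (Module.End ℂ V))
    (M : Submodule ℤ (V →ₗ[ℂ] ℂ)) (hfg : M.FG)
    (hstab : ∀ t ∈ G, ∀ l ∈ M, l ∘ₗ t ∈ M)
    (hsep : ∀ v : V, (∀ l ∈ M, l v = 0) → v = 0) :
    Module.Finite ℤ (Algebra.adjoin ℤ G) := by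
  have hle : Algebra.adjoin ℤ G ≤ stabSubalgebra M :=
    Algebra.adjoin_le (fun t ht => hstab t ht)
  haveI : Module.Finite ℤ M := Module.Finite.iff_fg.mpr hfg
  -- the transpose action
  let Φ : (Algebra.adjoin ℤ G) →ₗ[ℤ] (M →ₗ[ℤ] M) :=
    { toFun := fun t =>
        { toFun := fun l => ⟨(l : V →ₗ[ℂ] ℂ) ∘ₗ (t : Module.End ℂ V), hle t.2 _ l.2⟩
          map_add' := by
            intro l l'
            apply Subtype.ext
            simp [LinearMap.add_comp]
          map_smul' := by
            intro r l
            apply Subtype.ext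
            ext v
            simp }
      map_add' := by
        intro t t'
        ext l v
        simp [LinearMap.comp_add]
      map_smul' := by
        intro r t
        ext l v
        simp }
  have hinj : Function.Injective Φ := by
    rw [← LinearMap.ker_eq_bot, LinearMap.ker_eq_bot']
    intro t ht
    apply Subtype.ext
    ext v
    apply hsep
    intro l hl
    have := congrArg (fun (F : M →ₗ[ℤ] M) => ((F ⟨l, hl⟩ : M) : V →ₗ[ℂ] ℂ) v) ht
    simpa [Φ] using this
  exact Module.Finite.of_injective Φ hinj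

end Fermat.Agent.S22
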