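import Fermat.Agent.S22.Lattice

set_option autoImplicit false

namespace Fermat.Agent.S22

open UpperHalfPlane Complex Filter Topology Asymptotics Matrix.SpecialLinearGroup
open scoped MatrixGroups ModularForm Manifold

noncomputable section

/-- The functional `f ↦ τ ^ l * towerOf f (i + 1) τ`. -/
def evLin (N n : ℕ) [NeZero N] (τ : ℍ) (i l : ℕ) :
    CuspForm (CongruenceSubgroup.Gamma0 N) ((n : ℤ) + 2) →ₗ[ℂ] ℂ where
  toFun f := (τ : ℂ) ^ l * towerOf f (i + 1) τ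
  map_add' f f' := by
    have : (⇑(f + f') : ℍ → ℂ) = ⇑f + ⇑f' := rfl
    rw [this, towerOf_add (hasTower_cuspForm f) (hasTower_cuspForm f')]
    simp [mul_add]
  map_smul' c f := by
    have : (⇑(c • f) : ℍ → ℂ) = c • ⇑f := rfl
    rw [this, towerOf_smul c (hasTower_cuspForm f)]
    simp
    ring

/-- Integer coefficients of the expansion of `Phi`. -/
def phiCoeff (n : ℕ) (a b : ℤ) (i m : ℕ) : ℤ :=
  (n.descFactorial i : ℤ) * b ^ i * (a ^ m * (-b) ^ (n - i - m) * ((n - i).choose m : ℤ))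

theorem Phi_int (n : ℕ) (F : ℕ → ℍ → ℂ) (a b : ℤ) (τ : ℍ) :
    Phi n F (a : ℂ) (b : ℂ) τ =
      ∑ i ∈ Finset.range (n + 1), ∑ m ∈ Finset.range (n - i + 1),
        ((phiCoeff n a b i m : ℤ) : ℂ) * ((τ : ℂ) ^ (n - i - m) * F (i + 1) τ) := by
  unfold Phi
  refine Finset.sum_congr rfl fun i _ => ?_
  have h : ((a : ℂ) - (τ : ℂ) * (b : ℂ)) ^ (n - i) =
      ∑ m ∈ Finset.range (n - i + 1),
        (a : ℂ) ^ m * (-((τ : ℂ) * (b : ℂ))) ^ (n - i - m) * ((n - i).choose m : ℂ) := by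
    rw [sub_eq_add_neg, add_pow]
  rw [h, Finset.mul_sum]
  refine Finset.sum_congr rfl fun m _ => ?_
  unfold phiCoeff
  push_cast
  rw [show -((τ : ℂ) * (b : ℂ)) = (τ : ℂ) * (-(b : ℂ)) by ring, mul_pow]
  ring

/-- The finite set of evaluation functionals at `τ`. -/
def evSet (N n : ℕ) [NeZero N] (τ : ℍ) :
    Set (CuspForm (CongruenceSubgroup.Gamma0 N) ((n : ℤ) + 2) →ₗ[ℂ] ℂ) :=
  Set.range fun p : Fin (n + 1) × Fin (n + 1) => evLin N n τ p.1 p.2

theorem evSet_finite (N n : ℕ) [NeZero N] (τ : ℍ) : (evSet N n τ).Finite :=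
  Set.finite_range _

theorem evLin_mem_evSet (N n : ℕ) [NeZero N] (τ : ℍ) {i l : ℕ} (hi : i < n + 1) (hl : l < n + 1) :
    evLin N n τ i l ∈ evSet N n τ :=
  ⟨(⟨i, hi⟩, ⟨l, hl⟩), rfl⟩

theorem actX_mapGL_int (γ : SL(2, ℤ)) (a b : ℤ) :
    actX (mapGL ℝ γ) (a : ℂ) (b : ℂ) = ((γ 0 0 * a + γ 0 1 * b : ℤ) : ℂ) := by
  simp [actX]

theorem actY_mapGL_int (γ : SL(2, ℤ)) (a b : ℤ) :
    actY (mapGL ℝ γ) (a : ℂ) (b : ℂ) = ((γ 1 0 * a + γ 1 1 * b : ℤ) : ℂ) := by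
  simp [actY]

theorem cycLin_eq_sum (N n : ℕ) [NeZero N] (γ : SL(2, ℤ)) (a b : ℤ) :
    cycLin N n (mapGL ℝ γ) a b =
      (∑ i ∈ Finset.range (n + 1), ∑ m ∈ Finset.range (n - i + 1),
        (phiCoeff n (γ 0 0 * a + γ 0 1 * b) (γ 1 0 * a + γ 1 1 * b) i m) •
          evLin N n (mapGL ℝ γ • UpperHalfPlane.I) i (n - i - m)) -
      ∑ i ∈ Finset.range (n + 1), ∑ m ∈ Finset.range (n - i + 1),
        (phiCoeff n a b i m) • evLin N n UpperHalfPlane.I i (n - i - m) := by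
  ext f
  rw [cycLin_apply, cyc, actX_mapGL_int, actY_mapGL_int, Phi_int, Phi_int]
  simp only [LinearMap.sub_apply, LinearMap.sum_apply, LinearMap.smul_apply, evLin,
    LinearMap.coe_mk, AddHom.coe_mk, zsmul_eq_mul]

theorem cycLin_mem_span_evSet (N n : ℕ) [NeZero N] (γ : SL(2, ℤ)) (a b : ℤ) :
    cycLin N n (mapGL ℝ γ) a b ∈
      Submodule.span ℤ (evSet N n (mapGL ℝ γ • UpperHalfPlane.I) ∪ evSet N n UpperHalfPlane.I) := by
  rw [cycLin_eq_sum]
  refine Submodule.sub_mem _ ?_ ?_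
  · refine Submodule.sum_mem _ fun i hi => Submodule.sum_mem _ fun m _ =>
      Submodule.smul_mem _ _ (Submodule.subset_span (Or.inl ?_))
    exact evLin_mem_evSet N n _ (Finset.mem_range.mp hi) (by omega)
  · refine Submodule.sum_mem _ fun i hi => Submodule.sum_mem _ fun m _ =>
      Submodule.smul_mem _ _ (Submodule.subset_span (Or.inr ?_))
    exact evLin_mem_evSet N n _ (Finset.mem_range.mp hi) (by omega)

theorem slash_eq_of_mem_Gamma0 (N n : ℕ) {γ : SL(2, ℤ)} (hγ : γ ∈ CongruenceSubgroup.Gamma0 N)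
    (f : CuspForm (CongruenceSubgroup.Gamma0 N) ((n : ℤ) + 2)) :
    (⇑f : ℍ → ℂ) ∣[(n : ℤ) + 2] (mapGL ℝ γ) = f :=
  SlashInvariantFormClass.slash_action_eq f _ ⟨γ, hγ, rfl⟩

theorem det_mapGL_pos_fg (γ : SL(2, ℤ)) : 0 < (mapGL ℝ γ).val.det := by
  have h : ((mapGL ℝ γ).det : ℝ) = 1 := by rw [Matrix.SpecialLinearGroup.det_mapGL]; rfl
  rw [Matrix.GeneralLinearGroup.val_det_apply] at h
  rw [h]
  exact one_pos

theorem cycLin_mul (N n : ℕ) [NeZero N] {γ : SL(2, ℤ)} (hγ : γ ∈ CongruenceSubgroup.Gamma0 N)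
    (γ' : SL(2, ℤ)) (a b : ℤ) :
    cycLin N n (mapGL ℝ (γ * γ')) a b =
      cycLin N n (mapGL ℝ γ) ((γ' 0 0 * a + γ' 0 1 * b : ℤ) : ℂ) ((γ' 1 0 * a + γ' 1 1 * b : ℤ) : ℂ)
        + cycLin N n (mapGL ℝ γ') a b := by
  ext f
  rw [LinearMap.add_apply, cycLin_apply, cycLin_apply, cycLin_apply, map_mul,
    cyc_mul (hasTower_cuspForm f) (det_mapGL_pos_fg γ) (slash_eq_of_mem_Gamma0 N n hγ f),
    actX_mapGL_int, actY_mapGL_int]

theorem cycLin_one (N n : ℕ) [NeZero N] (x y : ℂ) : cycLin N n 1 x y = 0 := by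
  ext f
  rw [cycLin_apply, cyc_one]
  rfl

theorem exists_finite_generators (N : ℕ) [NeZero N] :
    ∃ s : Set SL(2, ℤ), s.Finite ∧ Subgroup.closure s = CongruenceSubgroup.Gamma0 N := by
  have : Group.FG SL(2, ℤ) := by
    rw [Group.fg_iff]
    exact ⟨{ModularGroup.S, ModularGroup.T}, SpecialLinearGroup.SL2Z_generators,
      by simp⟩
  have h : Group.FG (CongruenceSubgroup.Gamma0 N) := inferInstance
  have h2 : (CongruenceSubgroup.Gamma0 N).FG := (Group.fg_iff_subgroup_fg _).mp h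
  obtain ⟨s, hs⟩ := h2
  exact ⟨s, s.finite_toSet, hs⟩

theorem periodLattice_fg (N n : ℕ) [NeZero N] : (periodLattice N n).FG := by
  obtain ⟨s, hsfin, hs⟩ := exists_finite_generators N
  set A : Set (CuspForm (CongruenceSubgroup.Gamma0 N) ((n : ℤ) + 2) →ₗ[ℂ] ℂ) :=
    (⋃ γ ∈ s, evSet N n (mapGL ℝ γ • UpperHalfPlane.I)) ∪ evSet N n UpperHalfPlane.I with hA
  have hAfin : A.Finite :=
    (hsfin.biUnion fun γ _ => evSet_finite N n _).union (evSet_finite N n _)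
  have hW : (Submodule.span ℤ A).FG := Submodule.fg_span hAfin
  refine Submodule.FG.of_le hW ?_
  have key : ∀ γ (hγ : γ ∈ Subgroup.closure s), ∀ a b : ℤ,
      cycLin N n (mapGL ℝ γ) a b ∈ Submodule.span ℤ A := by
    intro γ hγ
    induction hγ using Subgroup.closure_induction with
    | mem x hx =>
      intro a b
      refine Submodule.span_mono ?_ (cycLin_mem_span_evSet N n x a b)
      rintro l (hl | hl)
      · exact Or.inl (Set.mem_biUnion hx hl)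
      · exact Or.inr hl
    | one =>
      intro a b
      rw [map_one, cycLin_one]
      exact Submodule.zero_mem _
    | mul x y hx hy ihx ihy =>
      intro a b
      rw [cycLin_mul N n (hs ▸ hx) y a b]
      exact Submodule.add_mem _ (ihx _ _) (ihy _ _)
    | inv x hx ih =>
      intro a b
      have h1 := cycLin_mul N n (hs ▸ hx) x⁻¹ a b
      rw [mul_inv_cancel, map_one, cycLin_one] at h1
      have h2 : cycLin N n (mapGL ℝ x⁻¹) a b =
          - cycLin N n (mapGL ℝ x) ((x⁻¹ 0 0 * a + x⁻¹ 0 1 * b : ℤ) : ℂ)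
            ((x⁻¹ 1 0 * a + x⁻¹ 1 1 * b : ℤ) : ℂ) := by
        exact eq_neg_of_add_eq_zero_right h1.symm
      rw [h2]
      exact Submodule.neg_mem _ (ih _ _)
  rw [periodLattice, Submodule.span_le]
  rintro l ⟨γ, hγ, a, b, rfl⟩
  exact key γ (hs ▸ hγ) a b

end

end Fermat.Agent.S22
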