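import Fermat.Agent.S22.Lattice

set_option autoImplicit false

namespace Fermat.Agent.S22

open UpperHalfPlane Complex Filter Topology Asymptotics Matrix.SpecialLinearGroup
open scoped MatrixGroups ModularForm Manifold

open P2MW.S_ModularForm_heckeT_slash_eq_self_of_mem_Gamma0.ModularForm.HeckeSlashInvariance

/-- The vertical path going to `i∞`. -/
noncomputable def vpath (t : ℝ) : ℍ := ⟨⟨0, Real.exp t⟩, Real.exp_pos t⟩

/-- `g` maps the vertical path to a path going to `i∞` with bounded real part. -/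
def GoodPath (g : GL (Fin 2) ℝ) : Prop :=
  Tendsto (fun t => (g • vpath t).im) atTop atTop ∧ ∃ C, ∀ t, |(g • vpath t).re| ≤ C

theorem goodPath_one : GoodPath 1 := by
  refine ⟨?_, 0, fun t => ?_⟩
  · simpa [vpath] using Real.tendsto_exp_atTop
  · simp [vpath]

theorem goodPath_heckeMatrix {p : ℕ} (hp : p ≠ 0) (j : ℕ) :
    GoodPath (ModularForm.heckeMatrix p j) := by
  have hp' : (0 : ℝ) < p := by exact_mod_cast Nat.pos_of_ne_zero hp
  have key : ∀ t, ((ModularForm.heckeMatrix p j • vpath t : ℍ) : ℂ) =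
      ⟨(j : ℝ) / p, Real.exp t / p⟩ := by
    intro t
    rw [ModularForm.coe_heckeMatrix_smul hp]
    apply Complex.ext <;> simp [vpath, Complex.div_natCast_re, Complex.div_natCast_im]
  refine ⟨?_, (j : ℝ) / p, fun t => ?_⟩
  · have : (fun t => (ModularForm.heckeMatrix p j • vpath t).im) = fun t => Real.exp t / p := by
      funext t
      have := congrArg Complex.im (key t)
      simpa using this
    rw [this]
    exact Real.tendsto_exp_atTop.atTop_div_const hp'
  · have := congrArg Complex.re (key t)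
    have h2 : (ModularForm.heckeMatrix p j • vpath t).re = (j : ℝ) / p := by simpa using this
    rw [h2, abs_of_nonneg (by positivity)]

theorem goodPath_heckeDiagMatrix {p : ℕ} (hp : p ≠ 0) :
    GoodPath (ModularForm.heckeDiagMatrix p) := by
  have hp' : (0 : ℝ) < p := by exact_mod_cast Nat.pos_of_ne_zero hp
  have key : ∀ t, ((ModularForm.heckeDiagMatrix p • vpath t : ℍ) : ℂ) =
      ⟨0, p * Real.exp t⟩ := by
    intro t
    rw [ModularForm.coe_heckeDiagMatrix_smul hp]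
    apply Complex.ext <;> simp [vpath]
  refine ⟨?_, 0, fun t => ?_⟩
  · have : (fun t => (ModularForm.heckeDiagMatrix p • vpath t).im) = fun t => p * Real.exp t := by
      funext t
      have := congrArg Complex.im (key t)
      simpa using this
    rw [this]
    exact Real.tendsto_exp_atTop.const_mul_atTop hp'
  · have := congrArg Complex.re (key t)
    have h2 : (ModularForm.heckeDiagMatrix p • vpath t).re = 0 := by simpa using this
    rw [h2]; simp

theorem Phi_sum_smul {ι : Type*} (s : Finset ι) (α : ι → GL (Fin 2) ℝ)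
    (hdet : ∀ i ∈ s, 0 < (α i).val.det) (hpath : ∀ i ∈ s, GoodPath (α i))
    {F G : ℕ → ℍ → ℂ} (hF : IsTower F) (hG : IsTower G) (n : ℕ)
    (h0 : G 0 = ∑ i ∈ s, F 0 ∣[(n : ℤ) + 2] α i) (x y : ℂ) (τ : ℍ) :
    Phi n G x y τ = ∑ i ∈ s, Phi n F (actX (α i) x y) (actY (α i) x y) (α i • τ) := by
  set D : ℍ → ℂ := fun τ => Phi n G x y τ -
    ∑ i ∈ s, Phi n F (actX (α i) x y) (actY (α i) x y) (α i • τ) with hD
  have hder : ∀ τ : ℍ, HasDerivAt (D ∘ ofComplex) 0 τ := by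
    intro τ
    have h1 := Phi_hasDerivAt hG n x y τ
    have h2 : HasDerivAt (fun w : ℂ => ∑ i ∈ s,
        Phi n F (actX (α i) x y) (actY (α i) x y) (α i • ofComplex w))
        (∑ i ∈ s, (F 0 ∣[(n : ℤ) + 2] α i) τ * (x - τ * y) ^ n) τ :=
      HasDerivAt.fun_sum fun i hi => Phi_smul_hasDerivAt hF n (α i) (hdet i hi) x y τ
    have h3 := h1.sub h2
    have h4 : G 0 τ * (x - τ * y) ^ n - ∑ i ∈ s, (F 0 ∣[(n : ℤ) + 2] α i) τ * (x - τ * y) ^ n = 0 := by
      rw [h0, Finset.sum_apply, Finset.sum_mul, sub_self]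
    rw [h4] at h3
    exact h3
  have hconst : ∀ τ τ', D τ = D τ' := eq_of_hasDerivAt_zero hder
  have hlim : Tendsto (fun t => D (vpath t)) atTop (𝓝 0) := by
    have h1 : Tendsto (fun t => Phi n G x y (vpath t)) atTop (𝓝 0) := by
      have := goodPath_one
      simp only [GoodPath, one_smul] at this
      exact Phi_tendsto_of_path hG n x y this.1 this.2
    have h2 : Tendsto (fun t => ∑ i ∈ s,
        Phi n F (actX (α i) x y) (actY (α i) x y) (α i • vpath t)) atTop (𝓝 (∑ i ∈ s, 0)) :=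
      tendsto_finsetSum _ fun i hi =>
        Phi_tendsto_of_path hF n _ _ (hpath i hi).1 (hpath i hi).2
    have := h1.sub h2
    simpa using this
  have h0' : D τ = 0 := by
    have h1 : (fun t => D (vpath t)) = fun _ => D τ := funext fun t => hconst _ _
    rw [h1] at hlim
    exact tendsto_nhds_unique tendsto_const_nhds hlim
  exact sub_eq_zero.mp h0'


theorem hecke_det_mapGL_pos (g : SL(2, ℤ)) : 0 < (mapGL ℝ g : GL (Fin 2) ℝ).val.det := by
  have h := Matrix.SpecialLinearGroup.det_mapGL (S := ℝ) g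
  have h2 : ((mapGL ℝ g : GL (Fin 2) ℝ).det : ℝ) = 1 := by rw [h]; rfl
  rw [Matrix.GeneralLinearGroup.val_det_apply] at h2
  rw [h2]; exact one_pos

theorem cyc_hecke {ι : Type*} [Fintype ι] (α : ι → GL (Fin 2) ℝ)
    (hdet : ∀ i, 0 < (α i).val.det) (hpath : ∀ i, GoodPath (α i))
    (N n : ℕ) [NeZero N] (f Tf : CuspForm (CongruenceSubgroup.Gamma0 N) ((n : ℤ) + 2))
    (hT : (⇑Tf : ℍ → ℂ) = ∑ i, (⇑f : ℍ → ℂ) ∣[(n : ℤ) + 2] α i)
    (γ : SL(2, ℤ)) (σ : Equiv.Perm ι) (γ' : ι → SL(2, ℤ))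
    (hγ' : ∀ i, γ' i ∈ CongruenceSubgroup.Gamma0 N)
    (hmul : ∀ i, α i * mapGL ℝ γ = mapGL ℝ (γ' i) * α (σ i)) (x y : ℂ) :
    cyc n Tf (mapGL ℝ γ) x y =
      ∑ i, cyc n f (mapGL ℝ (γ' i)) (actX (α (σ i)) x y) (actY (α (σ i)) x y) := by
  have hf := hasTower_cuspForm f
  have hTf := hasTower_cuspForm Tf
  have hF := isTower_towerOf hf
  have hG := isTower_towerOf hTf
  have h0 : towerOf (⇑Tf) 0 = ∑ i, towerOf (⇑f) 0 ∣[(n : ℤ) + 2] α i := by
    rw [towerOf_zero hf, towerOf_zero hTf, hT]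
  have key := Phi_sum_smul Finset.univ α (fun i _ => hdet i) (fun i _ => hpath i) hF hG n h0
  rw [cyc, key, key, ← Equiv.sum_comp σ (fun i => Phi n (towerOf ⇑f) (actX (α i) x y) (actY (α i) x y)
    (α i • UpperHalfPlane.I)), ← Finset.sum_sub_distrib]
  refine Finset.sum_congr rfl fun i _ => ?_
  have hinv : (⇑f : ℍ → ℂ) ∣[(n : ℤ) + 2] (mapGL ℝ (γ' i)) = f :=
    SlashInvariantFormClass.slash_action_eq f _ (Subgroup.mem_map_of_mem (mapGL ℝ) (hγ' i))
  have hdet' : 0 < (mapGL ℝ (γ' i) : GL (Fin 2) ℝ).val.det := hecke_det_mapGL_pos _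
  rw [← cyc_eq hf hdet' hinv _ _ (α (σ i) • UpperHalfPlane.I), ← actX_mul, ← actY_mul, ← actX_mul,
    ← actY_mul, ← mul_smul, ← mul_smul, hmul i]

theorem actX_int (g : GL (Fin 2) ℝ) (hg : ∀ r s, ∃ m : ℤ, g r s = (m : ℝ)) (a b : ℤ) :
    ∃ a' : ℤ, actX g a b = a' := by
  obtain ⟨m, hm⟩ := hg 0 0
  obtain ⟨m', hm'⟩ := hg 0 1
  exact ⟨m * a + m' * b, by simp [actX, hm, hm']⟩

theorem actY_int (g : GL (Fin 2) ℝ) (hg : ∀ r s, ∃ m : ℤ, g r s = (m : ℝ)) (a b : ℤ) :
    ∃ a' : ℤ, actY g a b = a' := by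
  obtain ⟨m, hm⟩ := hg 1 0
  obtain ⟨m', hm'⟩ := hg 1 1
  exact ⟨m * a + m' * b, by simp [actY, hm, hm']⟩

theorem comp_mem_of_hecke {ι : Type*} [Fintype ι] (α : ι → GL (Fin 2) ℝ)
    (hdet : ∀ i, 0 < (α i).val.det) (hpath : ∀ i, GoodPath (α i))
    (hint : ∀ i r s, ∃ m : ℤ, α i r s = (m : ℝ))
    (N n : ℕ) [NeZero N]
    (t : Module.End ℂ (CuspForm (CongruenceSubgroup.Gamma0 N) ((n : ℤ) + 2)))
    (hT : ∀ f, (⇑(t f) : ℍ → ℂ) = ∑ i, (⇑f : ℍ → ℂ) ∣[(n : ℤ) + 2] α i)
    (hperm : ∀ γ ∈ CongruenceSubgroup.Gamma0 N, ∃ σ : Equiv.Perm ι, ∀ i,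
      ∃ γ' ∈ CongruenceSubgroup.Gamma0 N, α i * mapGL ℝ γ = mapGL ℝ γ' * α (σ i))
    (l : CuspForm (CongruenceSubgroup.Gamma0 N) ((n : ℤ) + 2) →ₗ[ℂ] ℂ)
    (hl : l ∈ periodLattice N n) : l ∘ₗ t ∈ periodLattice N n := by
  unfold periodLattice at hl
  induction hl using Submodule.span_induction with
  | mem l hl =>
    obtain ⟨γ, hγ, a, b, rfl⟩ := hl
    obtain ⟨σ, hσ⟩ := hperm γ hγ
    choose γ' hγ' hmul using hσ
    choose a' ha' using fun i => actX_int (α (σ i)) (hint (σ i)) a b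
    choose b' hb' using fun i => actY_int (α (σ i)) (hint (σ i)) a b
    have : cycLin N n (mapGL ℝ γ) a b ∘ₗ t = ∑ i, cycLin N n (mapGL ℝ (γ' i)) (a' i) (b' i) := by
      ext f
      rw [LinearMap.comp_apply, cycLin_apply, LinearMap.sum_apply,
        cyc_hecke α hdet hpath N n f (t f) (hT f) γ σ γ' hγ' hmul]
      refine Finset.sum_congr rfl fun i _ => ?_
      rw [cycLin_apply, ha', hb']
    rw [this]
    exact Submodule.sum_mem _ fun i _ => cycLin_mem_periodLattice N n (hγ' i) _ _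
  | zero => simp
  | add l l' _ _ hl hl' =>
    rw [LinearMap.add_comp]
    exact Submodule.add_mem _ hl hl'
  | smul c l _ hl =>
    have : (c • l) ∘ₗ t = c • (l ∘ₗ t) := by
      ext f; simp
    rw [this]
    exact Submodule.smul_mem _ c hl

theorem heckeMatrix_int {p : ℕ} (hp : p ≠ 0) (j : ℕ) (r s : Fin 2) :
    ∃ m : ℤ, ModularForm.heckeMatrix p j r s = (m : ℝ) := by
  have h := ModularForm.val_heckeMatrix hp j
  have h' : ∀ r s, ModularForm.heckeMatrix p j r s = (!![(1 : ℝ), (j : ℝ); 0, (p : ℝ)]) r s :=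
    fun r s => congrFun (congrFun h r) s
  fin_cases r <;> fin_cases s
  · exact ⟨1, by simpa using h' 0 0⟩
  · exact ⟨j, by simpa using h' 0 1⟩
  · exact ⟨0, by simpa using h' 1 0⟩
  · exact ⟨p, by simpa using h' 1 1⟩

theorem heckeDiagMatrix_int {p : ℕ} (hp : p ≠ 0) (r s : Fin 2) :
    ∃ m : ℤ, ModularForm.heckeDiagMatrix p r s = (m : ℝ) := by
  have h := ModularForm.val_heckeDiagMatrix hp
  have h' : ∀ r s, ModularForm.heckeDiagMatrix p r s = (!![(p : ℝ), 0; 0, 1]) r s :=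
    fun r s => congrFun (congrFun h r) s
  fin_cases r <;> fin_cases s
  · exact ⟨p, by simpa using h' 0 0⟩
  · exact ⟨0, by simpa using h' 0 1⟩
  · exact ⟨0, by simpa using h' 1 0⟩
  · exact ⟨1, by simpa using h' 1 1⟩

theorem val_det_pos_of_det_pos {g : GL (Fin 2) ℝ} (h : 0 < (g.det : ℝ)) : 0 < g.val.det := by
  rwa [Matrix.GeneralLinearGroup.val_det_apply] at h

theorem periodLattice_stable (N n : ℕ) [NeZero N] (S : Set ℕ)
    (t : Module.End ℂ (CuspForm (CongruenceSubgroup.Gamma0 N) ((n : ℤ) + 2)))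
    (ht : t ∈ CuspForm.heckeGenerators N ((n : ℤ) + 2) S)
    (l : CuspForm (CongruenceSubgroup.Gamma0 N) ((n : ℤ) + 2) →ₗ[ℂ] ℂ)
    (hl : l ∈ periodLattice N n) : l ∘ₗ t ∈ periodLattice N n := by
  rcases ht with ⟨p, hp, hpN, -, rfl⟩ | ⟨p, hpN, hp, -, rfl⟩
  · have : Fact p.Prime := ⟨hp⟩
    have : NeZero p := ⟨hp.ne_zero⟩
    refine comp_mem_of_hecke (heckeRep p) ?_ ?_ ?_ N n _ ?_ ?_ l hl
    · intro x
      induction x using OnePoint.rec with
      | infty => exact val_det_pos_of_det_pos (ModularForm.det_heckeDiagMatrix_pos p)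
      | coe j => exact val_det_pos_of_det_pos (ModularForm.det_heckeMatrix_pos p _)
    · intro x
      induction x using OnePoint.rec with
      | infty => exact goodPath_heckeDiagMatrix hp.ne_zero
      | coe j => exact goodPath_heckeMatrix hp.ne_zero _
    · intro x
      induction x using OnePoint.rec with
      | infty => exact heckeDiagMatrix_int hp.ne_zero
      | coe j => exact heckeMatrix_int hp.ne_zero _
    · intro f
      rw [CuspForm.coe_heckeTLin_apply]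
      exact heckeT_eq_sum_onePoint _ _
    · intro γ hγ
      have hcN : (N : ℤ) ∣ γ 1 0 :=
        (ZMod.intCast_zmod_eq_zero_iff_dvd _ _).mp (CongruenceSubgroup.Gamma0_mem.mp hγ)
      refine ⟨MulAction.toPerm (redMatrix p γ), fun x => ?_⟩
      obtain ⟨g', hg', hmul⟩ := heckeRep_mul hpN γ hcN x
      exact ⟨g', CongruenceSubgroup.Gamma0_mem.mpr
        ((ZMod.intCast_zmod_eq_zero_iff_dvd _ _).mpr hg'), hmul⟩
  · have : NeZero p := ⟨hp.ne_zero⟩
    refine comp_mem_of_hecke (fun x : ZMod p => ModularForm.heckeMatrix p x.val) ?_ ?_ ?_ N n _ ?_ ?_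
      l hl
    · intro x
      exact val_det_pos_of_det_pos (ModularForm.det_heckeMatrix_pos p _)
    · intro x
      exact goodPath_heckeMatrix hp.ne_zero _
    · intro x
      exact heckeMatrix_int hp.ne_zero _
    · intro f
      rw [CuspForm.coe_heckeULin_apply]
      exact heckeU_eq_sum_zmod _ _
    · intro γ hγ
      have hcN : (N : ℤ) ∣ γ 1 0 :=
        (ZMod.intCast_zmod_eq_zero_iff_dvd _ _).mp (CongruenceSubgroup.Gamma0_mem.mp hγ)
      have hc : (p : ℤ) ∣ γ 1 0 := (Int.natCast_dvd_natCast.mpr hpN).trans hcN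
      refine ⟨affinePerm γ ((ZMod.intCast_zmod_eq_zero_iff_dvd _ _).mpr hc), fun x => ?_⟩
      obtain ⟨g', hg', hmul⟩ := heckeMatrix_mul_of_dvd γ hc x
      refine ⟨g', ?_, hmul⟩
      rw [CongruenceSubgroup.Gamma0_mem, hg']
      push_cast
      rw [CongruenceSubgroup.Gamma0_mem.mp hγ, mul_zero]

end Fermat.Agent.S22
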