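import Fermat.Agent.S22.Lattice
import Fermat.Prelude.Thm_ModularForm_sturm_bound_Gamma0
import Fermat.Prelude.Thm_Subgroup_IsArithmetic_exists_nat_mem_strictPeriods_conj
import Fermat.Prelude.Thm_CongruenceSubgroup_one_mem_strictPeriods_Gamma0

set_option autoImplicit false

namespace Fermat.Agent.S22

open UpperHalfPlane Complex Filter Topology Asymptotics Matrix.SpecialLinearGroup
open scoped MatrixGroups ModularForm Manifold

/-! ### Polynomial lemmas -/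

theorem exists_poly_Phi (n : ℕ) (F : ℕ → ℍ → ℂ) (a b c d : ℂ) (τ : ℍ) :
    ∃ P : Polynomial ℂ, ∀ x : ℂ, P.eval x = Phi n F (a * x + b) (c * x + d) τ := by
  refine ⟨∑ i ∈ Finset.range (n + 1),
    Polynomial.C ((n.descFactorial i : ℂ) * F (i + 1) τ) *
      (Polynomial.C c * Polynomial.X + Polynomial.C d) ^ i *
      ((Polynomial.C a * Polynomial.X + Polynomial.C b) -
        Polynomial.C (τ : ℂ) * (Polynomial.C c * Polynomial.X + Polynomial.C d)) ^ (n - i),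
    fun x => ?_⟩
  simp [Phi, Polynomial.eval_finsetSum]

theorem poly_eval_eq_zero_of_int {P : Polynomial ℂ} (h : ∀ a : ℤ, P.eval (a : ℂ) = 0) (x : ℂ) :
    P.eval x = 0 := by
  have h0 : P = 0 := Polynomial.eq_zero_of_infinite_isRoot P
    (Set.infinite_of_injective_forall_mem (f := fun a : ℤ => (a : ℂ)) Int.cast_injective h)
  simp [h0]

theorem poly_const_of_periodic {P : Polynomial ℂ} {M : ℝ} (hM : M ≠ 0)
    (h : ∀ τ : ℍ, P.eval ((τ : ℂ) + M) = P.eval (τ : ℂ)) (τ₀ : ℍ) (x : ℂ) :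
    P.eval x = P.eval (τ₀ : ℂ) := by
  have key : ∀ j : ℕ, P.eval ((τ₀ : ℂ) + j * M) = P.eval (τ₀ : ℂ) := by
    intro j
    induction j with
    | zero => simp
    | succ j ih =>
      have := h (((j : ℝ) * M) +ᵥ τ₀)
      rw [UpperHalfPlane.coe_vadd] at this
      rw [← ih]
      convert this using 2 <;> push_cast <;> ring
  have h0 : P - Polynomial.C (P.eval (τ₀ : ℂ)) = 0 := by
    refine Polynomial.eq_zero_of_infinite_isRoot _
      (Set.infinite_of_injective_forall_mem (f := fun j : ℕ => (τ₀ : ℂ) + j * M) ?_ ?_)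
    · intro i j hij
      have hM' : (M : ℂ) ≠ 0 := by exact_mod_cast hM
      have : (i : ℂ) = j := by
        have h1 : (i : ℂ) * M = j * M := add_left_cancel hij
        exact mul_right_cancel₀ hM' h1
      exact_mod_cast this
    · intro j
      simp [Polynomial.IsRoot, key j]
  have h1 : P = Polynomial.C (P.eval (τ₀ : ℂ)) := sub_eq_zero.mp h0
  rw [h1]
  simp

/-! ### Evaluation on the diagonal -/

theorem Phi_act_diag (n : ℕ) (F : ℕ → ℍ → ℂ) {g : GL (Fin 2) ℝ} (hg : 0 < g.val.det) (τ : ℍ) :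
    Phi n F (actX g τ 1) (actY g τ 1) (g • τ) =
      (n.factorial : ℂ) * (denom g τ ^ n * F (n + 1) (g • τ)) := by
  have hd : denom g τ ≠ 0 := denom_ne_zero g τ
  have hdet : 0 < g.det.val := by rwa [Matrix.GeneralLinearGroup.val_det_apply]
  have h1 : actX g τ 1 = denom g τ * ((g • τ : ℍ) : ℂ) := by
    rw [coe_smul_of_det_pos hdet]
    field_simp
    simp [actX, num]
  have h2 : actY g τ 1 = denom g τ * 1 := by
    simp [actY, denom]
  rw [h1, h2, Phi_homog, Phi_diag]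
  ring


/-! ### The top of the sequence of primitives is invariant of weight `-n` -/

section main

variable {N n : ℕ} [NeZero N]

theorem towerOf_cuspForm_props {Γ : Subgroup (GL (Fin 2) ℝ)} [Γ.IsArithmetic] {k : ℤ}
    (f : CuspForm Γ k) {h : ℝ} (hh : 0 < h) (hΓ : h ∈ Γ.strictPeriods) :
    towerOf f 0 = f ∧ IsTower (towerOf f) ∧
      ∀ i, Function.Periodic (towerOf f i ∘ ofComplex) h ∧ MDiff (towerOf f i) ∧
        IsZeroAtImInfty (towerOf f i) := by
  obtain ⟨F, h0, hF, hprop⟩ := exists_tower_cuspForm f hh hΓ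
  have : towerOf f = F := by rw [← h0]; exact towerOf_eq hF
  rw [this]
  exact ⟨h0, hF, hprop⟩

theorem sep_det_mapGL_pos (γ : SL(2, ℤ)) : 0 < (mapGL ℝ γ : GL (Fin 2) ℝ).val.det := by
  rw [← Matrix.GeneralLinearGroup.val_det_apply]
  simp

theorem slash_neg_mapGL_apply (E : ℍ → ℂ) (n : ℕ) (γ : SL(2, ℤ)) (τ : ℍ) :
    (E ∣[-(n : ℤ)] (mapGL ℝ γ)) τ = denom (mapGL ℝ γ) τ ^ n * E (mapGL ℝ γ • τ) := by
  have h := ModularForm.SL_slash_apply (k := -(n : ℤ)) E γ τ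
  rw [ModularForm.SL_slash] at h
  rw [show (mapGL ℝ γ : GL (Fin 2) ℝ) = (γ : GL (Fin 2) ℝ) from rfl, h, neg_neg, zpow_natCast,
    mul_comm]
  rfl

omit [NeZero N] in
theorem cyc_eq_zero_of_int (f : CuspForm (CongruenceSubgroup.Gamma0 N) ((n : ℤ) + 2))
    (g : GL (Fin 2) ℝ) (h : ∀ a b : ℤ, cyc n f g a b = 0) (x : ℂ) : cyc n f g x 1 = 0 := by
  obtain ⟨P, hP⟩ := exists_poly_Phi n (towerOf f) ((g 0 0 : ℝ) : ℂ) ((g 0 1 : ℝ) : ℂ)
    ((g 1 0 : ℝ) : ℂ) ((g 1 1 : ℝ) : ℂ) (g • UpperHalfPlane.I)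
  obtain ⟨Q, hQ⟩ := exists_poly_Phi n (towerOf f) 1 0 0 1 UpperHalfPlane.I
  have hPQ : ∀ x : ℂ, (P - Q).eval x = cyc n f g x 1 := by
    intro x
    rw [Polynomial.eval_sub, hP, hQ]
    simp [cyc, actX, actY]
  rw [← hPQ]
  refine poly_eval_eq_zero_of_int (fun a => ?_) x
  rw [hPQ]
  simpa using h a 1

theorem top_slash_eq (f : CuspForm (CongruenceSubgroup.Gamma0 N) ((n : ℤ) + 2))
    (h : ∀ γ ∈ CongruenceSubgroup.Gamma0 N, ∀ a b : ℤ, cyc n f (mapGL ℝ γ) a b = 0)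
    (γ : SL(2, ℤ)) (hγ : γ ∈ CongruenceSubgroup.Gamma0 N) :
    towerOf f (n + 1) ∣[-(n : ℤ)] (mapGL ℝ γ) = towerOf f (n + 1) := by
  have hinv : (f : ℍ → ℂ) ∣[(n : ℤ) + 2] (mapGL ℝ γ) = f :=
    SlashInvariantFormClass.slash_action_eq f _ (Subgroup.mem_map_of_mem _ hγ)
  funext τ
  have h1 := cyc_eq (n := n) (hasTower_cuspForm f) (sep_det_mapGL_pos γ) hinv τ 1 τ
  rw [cyc_eq_zero_of_int f _ (h γ hγ), Phi_act_diag n _ (sep_det_mapGL_pos γ), Phi_diag,
    sub_eq_zero] at h1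
  have hn : (n.factorial : ℂ) ≠ 0 := by exact_mod_cast n.factorial_ne_zero
  have h2 := mul_left_cancel₀ hn h1
  rw [← h2, slash_neg_mapGL_apply]


/-- The top of the sequence of primitives as a slash invariant form of weight `-n`. -/
noncomputable def topSIF (f : CuspForm (CongruenceSubgroup.Gamma0 N) ((n : ℤ) + 2))
    (h : ∀ γ ∈ CongruenceSubgroup.Gamma0 N, ∀ a b : ℤ, cyc n f (mapGL ℝ γ) a b = 0) :
    SlashInvariantForm (CongruenceSubgroup.Gamma0 N : Subgroup (GL (Fin 2) ℝ)) (-(n : ℤ)) where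
  toFun := towerOf f (n + 1)
  slash_action_eq' := by
    rintro _ ⟨γ, hγ, rfl⟩
    exact top_slash_eq f h γ hγ

open ConjAct Pointwise in
theorem isArithmetic_conj_inv (Γ : Subgroup (GL (Fin 2) ℝ)) [Γ.IsArithmetic] (g : SL(2, ℤ)) :
    ((toConjAct (mapGL ℝ g : GL (Fin 2) ℝ)⁻¹) • Γ).IsArithmetic := by
  simpa [(show Rat.castHom ℝ = algebraMap ℚ ℝ by rfl), map_inv, map_mapGL]
    using! Subgroup.IsArithmetic.conj Γ (mapGL ℚ g)⁻¹

theorem apply_vadd_of_periodic {G : ℍ → ℂ} {M : ℝ} (hG : Function.Periodic (G ∘ ofComplex) M)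
    (τ : ℍ) : G (M +ᵥ τ) = G τ := by
  have h := hG (τ : ℂ)
  simp only [Function.comp_apply, ofComplex_apply] at h
  rw [← h]
  congr 1
  have : ((M +ᵥ τ : ℍ) : ℂ) = (τ : ℂ) + M := by rw [UpperHalfPlane.coe_vadd]; ring
  rw [← this, ofComplex_apply]

open ConjAct Pointwise in
theorem top_slash_isBounded (f : CuspForm (CongruenceSubgroup.Gamma0 N) ((n : ℤ) + 2))
    (h : ∀ γ ∈ CongruenceSubgroup.Gamma0 N, ∀ a b : ℤ, cyc n f (mapGL ℝ γ) a b = 0)
    (σ : SL(2, ℤ)) : IsBoundedAtImInfty (towerOf f (n + 1) ∣[-(n : ℤ)] (mapGL ℝ σ)) := by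
  let Γ : Subgroup (GL (Fin 2) ℝ) := (CongruenceSubgroup.Gamma0 N : Subgroup (GL (Fin 2) ℝ))
  set s : GL (Fin 2) ℝ := mapGL ℝ σ with hs
  have : ((toConjAct s⁻¹) • Γ).IsArithmetic := isArithmetic_conj_inv Γ σ
  obtain ⟨M, hM0, hM⟩ := Subgroup.IsArithmetic.exists_nat_mem_strictPeriods_conj Γ
  have hMs : (M : ℝ) ∈ ((toConjAct s⁻¹) • Γ).strictPeriods := by
    have := hM σ⁻¹
    rwa [map_inv] at this
  have hM0' : (0 : ℝ) < M := by exact_mod_cast hM0
  set f' : CuspForm ((toConjAct s⁻¹) • Γ) ((n : ℤ) + 2) := CuspForm.translate f s with hf'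
  obtain ⟨hF0, hF, -⟩ := towerOf_cuspForm_props f one_pos
    (CongruenceSubgroup.one_mem_strictPeriods_Gamma0 N)
  obtain ⟨hF'0, hF', hF'prop⟩ := towerOf_cuspForm_props f' hM0' hMs
  have h0 : towerOf f 0 ∣[(n : ℤ) + 2] s = towerOf f' 0 := by
    rw [hF0, hF'0]; rfl
  have hdet : 0 < s.val.det := sep_det_mapGL_pos σ
  obtain ⟨P, hP⟩ := exists_poly_Phi n (towerOf f) ((s 0 0 : ℝ) : ℂ) ((s 0 1 : ℝ) : ℂ)
    ((s 1 0 : ℝ) : ℂ) ((s 1 1 : ℝ) : ℂ) (s • UpperHalfPlane.I)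
  obtain ⟨Q, hQ⟩ := exists_poly_Phi n (towerOf f') 1 0 0 1 UpperHalfPlane.I
  have hn : (n.factorial : ℂ) ≠ 0 := by exact_mod_cast n.factorial_ne_zero
  have key : ∀ τ : ℍ, (n.factorial : ℂ) * (towerOf f (n + 1) ∣[-(n : ℤ)] s) τ =
      (n.factorial : ℂ) * towerOf f' (n + 1) τ + (P - Q).eval (τ : ℂ) := by
    intro τ
    have h1 := Phi_smul_sub_const hF hF' n s hdet h0 τ 1 τ UpperHalfPlane.I
    rw [Phi_act_diag n _ hdet, Phi_diag] at h1
    rw [Polynomial.eval_sub, hP, hQ, slash_neg_mapGL_apply]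
    simp only [actX, actY, mul_one, one_mul, add_zero, zero_mul, zero_add] at h1 ⊢
    linear_combination h1
  have hper : ∀ τ : ℍ, (P - Q).eval ((τ : ℂ) + (M : ℝ)) = (P - Q).eval (τ : ℂ) := by
    intro τ
    have h1 := key ((M : ℝ) +ᵥ τ)
    have h2 := key τ
    have h3 : (towerOf f (n + 1) ∣[-(n : ℤ)] s) ((M : ℝ) +ᵥ τ) =
        (towerOf f (n + 1) ∣[-(n : ℤ)] s) τ :=
      SlashInvariantForm.vAdd_apply_of_mem_strictPeriods
        (SlashInvariantForm.translate (topSIF f h) s) τ hMs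
    have h4 : towerOf f' (n + 1) ((M : ℝ) +ᵥ τ) = towerOf f' (n + 1) τ :=
      apply_vadd_of_periodic (hF'prop (n + 1)).1 τ
    rw [h3, h4, UpperHalfPlane.coe_vadd] at h1
    rw [add_comm (τ : ℂ)]
    linear_combination h2 - h1
  have hconst := poly_const_of_periodic hM0'.ne' hper UpperHalfPlane.I
  have hfun : towerOf f (n + 1) ∣[-(n : ℤ)] s = towerOf f' (n + 1) +
      fun _ => (P - Q).eval (UpperHalfPlane.I : ℂ) / (n.factorial : ℂ) := by
    funext τ
    have h1 := key τ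
    rw [hconst] at h1
    simp only [Pi.add_apply]
    field_simp
    linear_combination h1
  rw [hfun]
  exact (hF'prop (n + 1)).2.2.isBoundedAtImInfty.add (Filter.const_boundedAtFilter _ _)


/-- The top of the sequence of primitives as a modular form of weight `-n`. -/
noncomputable def topMF (f : CuspForm (CongruenceSubgroup.Gamma0 N) ((n : ℤ) + 2))
    (h : ∀ γ ∈ CongruenceSubgroup.Gamma0 N, ∀ a b : ℤ, cyc n f (mapGL ℝ γ) a b = 0) :
    ModularForm (CongruenceSubgroup.Gamma0 N : Subgroup (GL (Fin 2) ℝ)) (-(n : ℤ)) where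
  toSlashInvariantForm := topSIF f h
  holo' := ((towerOf_cuspForm_props f one_pos
    (CongruenceSubgroup.one_mem_strictPeriods_Gamma0 N)).2.2 (n + 1)).2.1
  bdd_at_cusps' {c} hc := by
    rw [Subgroup.IsArithmetic.isCusp_iff_isCusp_SL2Z] at hc
    rw [OnePoint.isBoundedAt_iff_forall_SL2Z hc]
    intro γ _
    exact top_slash_isBounded f h γ

theorem top_eq_zero (f : CuspForm (CongruenceSubgroup.Gamma0 N) ((n : ℤ) + 2))
    (h : ∀ γ ∈ CongruenceSubgroup.Gamma0 N, ∀ a b : ℤ, cyc n f (mapGL ℝ γ) a b = 0) :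
    towerOf f (n + 1) = 0 := by
  have hz : IsZeroAtImInfty (towerOf f (n + 1)) := ((towerOf_cuspForm_props f one_pos
    (CongruenceSubgroup.one_mem_strictPeriods_Gamma0 N)).2.2 (n + 1)).2.2
  have h0 : topMF f h = 0 := by
    refine ModularForm.sturm_bound_Gamma0 N (topMF f h) (fun j hj => ?_)
    have hj0 : j = 0 := by
      have h1 : (-(n : ℤ) * ((CongruenceSubgroup.Gamma0 N).index : ℤ)).toNat = 0 := by
        apply Int.toNat_of_nonpos
        have : (0 : ℤ) ≤ (n : ℤ) * ((CongruenceSubgroup.Gamma0 N).index : ℤ) := by positivity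
        linarith
      rw [h1] at hj
      simpa using hj
    subst hj0
    have h2 : cuspFunction 1 (topMF f h) 0 = 0 := hz.cuspFunction_apply_zero one_pos
    simp [qExpansion_coeff, h2]
  have h1 : (topMF f h : ℍ → ℂ) = 0 := by rw [h0]; rfl
  exact h1

theorem IsTower.eq_zero_of_succ {F : ℕ → ℍ → ℂ} (hF : IsTower F) {i : ℕ} (h : F (i + 1) = 0) :
    F i = 0 := by
  funext τ
  have h1 := hF.hasDerivAt i τ
  rw [h] at h1
  have h2 : HasDerivAt ((0 : ℍ → ℂ) ∘ ofComplex) 0 (τ : ℂ) := by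
    simpa [Function.comp_def] using hasDerivAt_const (τ : ℂ) (0 : ℂ)
  exact h1.unique h2

theorem IsTower.eq_zero_of_top {F : ℕ → ℍ → ℂ} (hF : IsTower F) (i : ℕ) (h : F i = 0) :
    F 0 = 0 := by
  induction i with
  | zero => exact h
  | succ i ih => exact ih (hF.eq_zero_of_succ h)

end main

theorem eq_zero_of_cyc_eq_zero (N n : ℕ) [NeZero N]
    (f : CuspForm (CongruenceSubgroup.Gamma0 N) ((n : ℤ) + 2))
    (h : ∀ γ ∈ CongruenceSubgroup.Gamma0 N, ∀ a b : ℤ, cyc n f (mapGL ℝ γ) a b = 0) : f = 0 := by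
  obtain ⟨hF0, hF, -⟩ := towerOf_cuspForm_props f one_pos
    (CongruenceSubgroup.one_mem_strictPeriods_Gamma0 N)
  have h1 := hF.eq_zero_of_top (n + 1) (top_eq_zero f h)
  rw [hF0] at h1
  exact DFunLike.coe_injective h1

theorem periodLattice_sep (N n : ℕ) [NeZero N]
    (f : CuspForm (CongruenceSubgroup.Gamma0 N) ((n : ℤ) + 2))
    (h : ∀ l ∈ periodLattice N n, l f = 0) : f = 0 :=
  eq_zero_of_cyc_eq_zero N n f fun _ hγ a b => h _ (cycLin_mem_periodLattice N n hγ a b)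

end Fermat.Agent.S22
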