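import Mathlib
import Fermat.Prelude.Thm_ModularForm_sturm_bound_Gamma0

set_option autoImplicit false

open UpperHalfPlane ModularForm
open scoped MatrixGroups

namespace Fermat.Agent.S22

theorem one_mem_strictPeriods_Gamma0 (N : ℕ) :
    (1 : ℝ) ∈ (CongruenceSubgroup.Gamma0 N : Subgroup (GL (Fin 2) ℝ)).strictPeriods := by
  simp

/-- A modular form of weight `≤ 0` on `Γ₀(N)` with vanishing constant term is zero. -/
theorem modularForm_eq_zero_of_weight_nonpos (N : ℕ) [NeZero N] {k : ℤ} (hk : k ≤ 0)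
    (F : ModularForm (CongruenceSubgroup.Gamma0 N) k)
    (h0 : (qExpansion 1 F).coeff 0 = 0) : F = 0 := by
  apply ModularForm.sturm_bound_Gamma0 N F
  intro n hn
  have hn0 : n = 0 := by
    have h1 : k * ((CongruenceSubgroup.Gamma0 N).index : ℤ) ≤ 0 :=
      mul_nonpos_of_nonpos_of_nonneg hk (by positivity)
    have : (k * ((CongruenceSubgroup.Gamma0 N).index : ℤ)).toNat = 0 := by
      omega
    rw [this] at hn
    simpa using hn
  subst hn0
  exact h0

theorem cuspForm_eq_zero_of_weight_nonpos (N : ℕ) [NeZero N] {k : ℤ} (hk : k ≤ 0)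
    (f : CuspForm (CongruenceSubgroup.Gamma0 N) k) : f = 0 := by
  let F : ModularForm (CongruenceSubgroup.Gamma0 N) k :=
    { toSlashInvariantForm := f.toSlashInvariantForm
      holo' := f.holo'
      bdd_at_cusps' := fun hc g hg => (f.zero_at_cusps' hc g hg).boundedAtFilter }
  have hF : F = 0 := by
    apply modularForm_eq_zero_of_weight_nonpos N hk F
    exact CuspFormClass.qExpansion_coeff_zero f one_pos (one_mem_strictPeriods_Gamma0 N)
  ext z
  have := congrArg (fun G : ModularForm (CongruenceSubgroup.Gamma0 N) k => G z) hF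
  exact this

theorem neg_one_mem_Gamma0 (N : ℕ) : (-1 : SL(2, ℤ)) ∈ CongruenceSubgroup.Gamma0 N := by
  rw [CongruenceSubgroup.Gamma0_mem]
  simp

theorem cuspForm_eq_zero_of_odd_weight (N : ℕ) {k : ℤ} (hk : Odd k)
    (f : CuspForm (CongruenceSubgroup.Gamma0 N) k) : f = 0 := by
  have hmem : (Matrix.SpecialLinearGroup.mapGL ℝ (-1 : SL(2, ℤ))) ∈
      (CongruenceSubgroup.Gamma0 N : Subgroup (GL (Fin 2) ℝ)) :=
    ⟨-1, neg_one_mem_Gamma0 N, rfl⟩
  have h := SlashInvariantFormClass.slash_action_eq f _ hmem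
  ext z
  have hz := congrFun h z
  rw [ModularForm.slash_apply] at hz
  have hdet : ((Matrix.SpecialLinearGroup.mapGL ℝ (-1 : SL(2, ℤ))).det : ℝˣ) = 1 := by
    simp
  have hsm : (Matrix.SpecialLinearGroup.mapGL ℝ (-1 : SL(2, ℤ))) • z = z := by
    ext
    rw [UpperHalfPlane.coe_smul_of_det_pos (by simp)]
    simp [UpperHalfPlane.num, UpperHalfPlane.denom]
  have hden : UpperHalfPlane.denom (Matrix.SpecialLinearGroup.mapGL ℝ (-1 : SL(2, ℤ))) z = -1 := by
    simp [UpperHalfPlane.denom]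
  have hσ : UpperHalfPlane.σ (Matrix.SpecialLinearGroup.mapGL ℝ (-1 : SL(2, ℤ))) = .refl ℝ ℂ := by
    rw [UpperHalfPlane.σ, if_pos (by simp)]
  rw [hsm, hden, hσ, hdet] at hz
  have hpow : ((-1 : ℂ)) ^ (-k) = -1 := by
    rw [zpow_neg, hk.neg_one_zpow]
    norm_num
  simp only [ContinuousAlgEquiv.refl_apply, Units.val_one, abs_one, Complex.ofReal_one, one_zpow,
    mul_one, hpow] at hz
  have : (f z) = 0 := by
    have h2 : (2 : ℂ) * f z = 0 := by linear_combination -hz
    simpa using h2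
  simpa using this

theorem cuspForm_eq_zero_of_weight_le_one (N : ℕ) [NeZero N] {k : ℤ} (hk : k ≤ 1)
    (f : CuspForm (CongruenceSubgroup.Gamma0 N) k) : f = 0 := by
  rcases hk.lt_or_eq with h | h
  · exact cuspForm_eq_zero_of_weight_nonpos N (by omega) f
  · exact cuspForm_eq_zero_of_odd_weight N (by rw [h]; exact odd_one) f

end Fermat.Agent.S22
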