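import Fermat.Agent.S22.Defs

set_option autoImplicit false

namespace Fermat.Agent.S22

open UpperHalfPlane Complex Filter Topology Asymptotics
open scoped MatrixGroups ModularForm Manifold


theorem Phi_add (n : ℕ) (F F' : ℕ → ℍ → ℂ) (x y : ℂ) (τ : ℍ) :
    Phi n (F + F') x y τ = Phi n F x y τ + Phi n F' x y τ := by
  simp only [Phi, Pi.add_apply, ← Finset.sum_add_distrib]
  exact Finset.sum_congr rfl fun i _ => by ring

theorem Phi_smul (n : ℕ) (c : ℂ) (F : ℕ → ℍ → ℂ) (x y : ℂ) (τ : ℍ) :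
    Phi n (c • F) x y τ = c * Phi n F x y τ := by
  simp only [Phi, Pi.smul_apply, smul_eq_mul, Finset.mul_sum]
  exact Finset.sum_congr rfl fun i _ => by ring

theorem Phi_homog (n : ℕ) (F : ℕ → ℍ → ℂ) (c x y : ℂ) (τ : ℍ) :
    Phi n F (c * x) (c * y) τ = c ^ n * Phi n F x y τ := by
  simp only [Phi, Finset.mul_sum]
  refine Finset.sum_congr rfl fun i hi => ?_
  have hi' : i ≤ n := Nat.lt_succ_iff.mp (Finset.mem_range.mp hi)
  have h1 : c * x - (τ : ℂ) * (c * y) = c * (x - τ * y) := by ring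
  have h2 : c ^ n = c ^ i * c ^ (n - i) := by rw [← pow_add, Nat.add_sub_cancel' hi']
  rw [h1, mul_pow, mul_pow, h2]
  ring

theorem Phi_diag (n : ℕ) (F : ℕ → ℍ → ℂ) (τ : ℍ) :
    Phi n F τ 1 τ = (n.factorial : ℂ) * F (n + 1) τ := by
  rw [Phi, Finset.sum_range_succ, Finset.sum_eq_zero]
  · simp [Nat.descFactorial_self]
  · intro i hi
    have hi' : n - i ≠ 0 := by have := Finset.mem_range.mp hi; omega
    simp [hi']

theorem actX_mul (g g' : GL (Fin 2) ℝ) (x y : ℂ) :
    actX (g * g') x y = actX g (actX g' x y) (actY g' x y) := by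
  simp only [actX, actY, Matrix.GeneralLinearGroup.coe_mul, Matrix.mul_apply, Fin.sum_univ_two]
  push_cast
  ring

theorem actY_mul (g g' : GL (Fin 2) ℝ) (x y : ℂ) :
    actY (g * g') x y = actY g (actX g' x y) (actY g' x y) := by
  simp only [actX, actY, Matrix.GeneralLinearGroup.coe_mul, Matrix.mul_apply, Fin.sum_univ_two]
  push_cast
  ring

@[simp] theorem actX_one (x y : ℂ) : actX 1 x y = x := by simp [actX]

@[simp] theorem actY_one (x y : ℂ) : actY 1 x y = y := by simp [actY]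


theorem coe_ofComplex_eventuallyEq (τ : ℍ) :
    (fun w : ℂ => ((ofComplex w : ℍ) : ℂ)) =ᶠ[𝓝 (τ : ℂ)] fun w => w := by
  filter_upwards [isOpen_upperHalfPlaneSet.mem_nhds τ.im_pos] with w hw
  rw [ofComplex_apply_of_im_pos hw]

theorem Phi_hasDerivAt {F : ℕ → ℍ → ℂ} (hF : IsTower F) (n : ℕ) (x y : ℂ) (τ : ℍ) :
    HasDerivAt (fun w : ℂ => Phi n F x y (ofComplex w)) (F 0 τ * (x - τ * y) ^ n) τ := by
  set A : ℕ → ℂ := fun i => (n.descFactorial i : ℂ) * F i τ * y ^ i * (x - (τ : ℂ) * y) ^ (n - i)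
    with hA
  have hterm : ∀ i : ℕ, HasDerivAt
      (fun w : ℂ => (n.descFactorial i : ℂ) * (F (i + 1) ∘ ofComplex) w * y ^ i *
        (x - w * y) ^ (n - i)) (A i - A (i + 1)) τ := by
    intro i
    have h1 : HasDerivAt (fun w : ℂ => x - w * y) (-y) τ := by
      simpa using ((hasDerivAt_id (τ : ℂ)).mul_const y).const_sub x
    have h2 := h1.pow (n - i)
    have h3 := (((hF.hasDerivAt i τ).const_mul (n.descFactorial i : ℂ)).mul_const (y ^ i)).mul h2
    refine h3.congr_deriv ?_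
    simp only [hA, Function.comp_apply, ofComplex_apply, Nat.descFactorial_succ, Nat.cast_mul, Pi.pow_apply]
    have : n - (i + 1) = n - i - 1 := by omega
    rw [this]
    ring
  have hsum := HasDerivAt.fun_sum (u := Finset.range (n + 1)) fun i _ => hterm i
  rw [Finset.sum_range_sub'] at hsum
  have hA0 : A 0 = F 0 τ * (x - τ * y) ^ n := by simp [hA]
  have hAn : A (n + 1) = 0 := by
    simp [hA]
  rw [hA0, hAn, sub_zero] at hsum
  refine hsum.congr_of_eventuallyEq ?_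
  filter_upwards [coe_ofComplex_eventuallyEq τ] with w hw
  simp only [Phi, Function.comp_apply, hw]


theorem act_sub (g : GL (Fin 2) ℝ) (hg : 0 < g.val.det) (x y : ℂ) (τ : ℍ) :
    actX g x y - ((g • τ : ℍ) : ℂ) * actY g x y =
      (g.val.det : ℂ) * (x - τ * y) / denom g τ := by
  have hd : denom g τ ≠ 0 := denom_ne_zero g τ
  have hg' : 0 < (Matrix.GeneralLinearGroup.det g).val := by
    rwa [Matrix.GeneralLinearGroup.val_det_apply]
  rw [UpperHalfPlane.coe_smul_of_det_pos hg', eq_div_iff hd, Matrix.det_fin_two]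
  have h1 : (actX g x y - num g τ / denom g τ * actY g x y) * denom g τ =
      actX g x y * denom g τ - num g τ * actY g x y := by
    field_simp
  rw [h1]
  simp only [actX, actY, num, denom]
  push_cast
  ring

theorem slash_apply_of_det_pos (f : ℍ → ℂ) (n : ℕ) (g : GL (Fin 2) ℝ) (hg : 0 < g.val.det)
    (τ : ℍ) :
    (f ∣[(n : ℤ) + 2] g) τ = f (g • τ) * (g.val.det : ℂ) ^ (n + 1) / denom g τ ^ (n + 2) := by
  have hg' : 0 < (Matrix.GeneralLinearGroup.det g).val := by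
    rwa [Matrix.GeneralLinearGroup.val_det_apply]
  rw [ModularForm.slash_apply, UpperHalfPlane.σ, if_pos hg', abs_of_pos hg',
    Matrix.GeneralLinearGroup.val_det_apply]
  have h1 : ((n : ℤ) + 2 - 1) = ((n + 1 : ℕ) : ℤ) := by push_cast; ring
  have h2 : (-((n : ℤ) + 2)) = -((n + 2 : ℕ) : ℤ) := by push_cast; ring
  rw [h1, h2, zpow_natCast, zpow_neg, zpow_natCast]
  simp [div_eq_mul_inv]

theorem Phi_smul_hasDerivAt {F : ℕ → ℍ → ℂ} (hF : IsTower F) (n : ℕ) (g : GL (Fin 2) ℝ)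
    (hg : 0 < g.val.det) (x y : ℂ) (τ : ℍ) :
    HasDerivAt (fun w : ℂ => Phi n F (actX g x y) (actY g x y) (g • ofComplex w))
      ((F 0 ∣[(n : ℤ) + 2] g) τ * (x - τ * y) ^ n) τ := by
  have h_smul : HasDerivAt (fun w ↦ ↑(g • ofComplex w) : ℂ → ℂ)
      ((g.val.det : ℂ) / denom g τ ^ 2) ↑τ := (hasStrictDerivAt_smul hg τ).hasDerivAt
  have h1 := Phi_hasDerivAt hF n (actX g x y) (actY g x y) (g • τ)
  have h1' : HasDerivAt (fun w : ℂ => Phi n F (actX g x y) (actY g x y) (ofComplex w))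
      (F 0 (g • τ) * (actX g x y - ((g • τ : ℍ) : ℂ) * actY g x y) ^ n)
      ((fun w ↦ ↑(g • ofComplex w) : ℂ → ℂ) τ) := by
    simpa only [ofComplex_apply] using h1
  have h2 := h1'.comp (τ : ℂ) h_smul
  have hd : denom g τ ≠ 0 := denom_ne_zero g τ
  refine (h2.congr_deriv ?_).congr_of_eventuallyEq ?_
  · rw [act_sub g hg, slash_apply_of_det_pos _ _ _ hg, div_pow, mul_pow]
    field_simp
    ring
  · exact Eventually.of_forall fun w => by simp only [Function.comp_apply, ofComplex_apply]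


theorem eq_of_hasDerivAt_zero {G : ℍ → ℂ} (hG : ∀ τ : ℍ, HasDerivAt (G ∘ ofComplex) 0 τ)
    (τ τ' : ℍ) : G τ = G τ' := by
  have hconv : IsPreconnected upperHalfPlaneSet := (convex_halfSpace_im_gt 0).isPreconnected
  have hd : DifferentiableOn ℂ (G ∘ ofComplex) upperHalfPlaneSet := fun z hz =>
    (hG ⟨z, hz⟩).differentiableAt.differentiableWithinAt
  have hz : Set.EqOn (deriv (G ∘ ofComplex)) 0 upperHalfPlaneSet := fun z hz => (hG ⟨z, hz⟩).deriv
  have := isOpen_upperHalfPlaneSet.is_const_of_deriv_eq_zero hconv hd hz τ.im_pos τ'.im_pos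
  simpa using this

theorem eq_zero_of_hasDerivAt_zero_of_tendsto {G : ℍ → ℂ}
    (hG : ∀ τ : ℍ, HasDerivAt (G ∘ ofComplex) 0 τ) {φ : ℝ → ℍ}
    (hφ : Tendsto (fun t => G (φ t)) atTop (𝓝 0)) (τ : ℍ) : G τ = 0 := by
  have h1 : (fun t => G (φ t)) = fun _ => G τ := funext fun t => eq_of_hasDerivAt_zero hG _ _
  rw [h1] at hφ
  exact tendsto_nhds_unique tendsto_const_nhds hφ


theorem tendsto_pow_mul_exp_neg_mul {c : ℝ} (hc : 0 < c) (m : ℕ) :
    Tendsto (fun s : ℝ => s ^ m * Real.exp (-c * s)) atTop (𝓝 0) := by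
  have h1 : Tendsto (fun s : ℝ => c * s) atTop atTop := tendsto_id.const_mul_atTop hc
  have h2 := ((Real.tendsto_pow_mul_exp_neg_atTop_nhds_zero m).comp h1).const_mul ((c ^ m)⁻¹)
  rw [mul_zero] at h2
  refine h2.congr fun s => ?_
  simp only [Function.comp_apply, mul_pow, neg_mul]
  field_simp

theorem tendsto_mul_pow_of_path {G : ℍ → ℂ} {c : ℝ} (hc : 0 < c)
    (hG : G =O[atImInfty] fun τ : ℍ => Real.exp (-c * τ.im)) (m : ℕ) (x y : ℂ) {φ : ℝ → ℍ}
    (him : Tendsto (fun t => (φ t).im) atTop atTop) (hre : ∃ C, ∀ t, |(φ t).re| ≤ C) :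
    Tendsto (fun t => G (φ t) * (x - (φ t : ℂ) * y) ^ m) atTop (𝓝 0) := by
  obtain ⟨C, hC⟩ := hre
  have hφ : Tendsto φ atTop atImInfty := by
    rw [atImInfty, tendsto_comap_iff]; exact him
  obtain ⟨K, hK⟩ := (hG.comp_tendsto hφ).bound
  set B : ℝ := ‖x‖ + (C + 1) * ‖y‖ with hB
  have hC0 : 0 ≤ C := (abs_nonneg _).trans (hC 0)
  have hB0 : 0 ≤ B := by positivity
  have hlim : Tendsto (fun t => (K * B ^ m) * ((φ t).im ^ m * Real.exp (-c * (φ t).im)))
      atTop (𝓝 0) := by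
    simpa using ((tendsto_pow_mul_exp_neg_mul hc m).comp him).const_mul (K * B ^ m)
  refine squeeze_zero_norm' ?_ hlim
  filter_upwards [hK, him.eventually_ge_atTop 1] with t ht hs
  simp only [Function.comp_apply, Real.norm_eq_abs, abs_of_pos (Real.exp_pos _)] at ht
  have h1 : ‖x - (φ t : ℂ) * y‖ ≤ B * (φ t).im := by
    have h2 : ‖(φ t : ℂ)‖ ≤ C + (φ t).im := by
      refine (Complex.norm_le_abs_re_add_abs_im _).trans ?_
      have : |((φ t : ℂ)).im| = (φ t).im := abs_of_pos (φ t).im_pos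
      rw [this]
      exact add_le_add (hC t) le_rfl
    calc ‖x - (φ t : ℂ) * y‖ ≤ ‖x‖ + ‖(φ t : ℂ)‖ * ‖y‖ := by
          rw [← norm_mul]; exact norm_sub_le _ _
      _ ≤ ‖x‖ + (C + (φ t).im) * ‖y‖ := by gcongr
      _ ≤ B * (φ t).im := by
          rw [hB]
          have hx := norm_nonneg x
          have hy := norm_nonneg y
          nlinarith [mul_nonneg hC0 hy, mul_nonneg hx (sub_nonneg.mpr hs),
            mul_nonneg (mul_nonneg hC0 hy) (sub_nonneg.mpr hs)]
  have hK0 : 0 ≤ K * Real.exp (-c * (φ t).im) := (norm_nonneg _).trans ht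
  calc ‖G (φ t) * (x - (φ t : ℂ) * y) ^ m‖ = ‖G (φ t)‖ * ‖x - (φ t : ℂ) * y‖ ^ m := by
        rw [norm_mul, norm_pow]
    _ ≤ (K * Real.exp (-c * (φ t).im)) * (B * (φ t).im) ^ m := by gcongr
    _ = (K * B ^ m) * ((φ t).im ^ m * Real.exp (-c * (φ t).im)) := by rw [mul_pow]; ring

theorem Phi_tendsto_of_path {F : ℕ → ℍ → ℂ} (hF : IsTower F) (n : ℕ) (x y : ℂ) {φ : ℝ → ℍ}
    (him : Tendsto (fun t => (φ t).im) atTop atTop) (hre : ∃ C, ∀ t, |(φ t).re| ≤ C) :
    Tendsto (fun t => Phi n F x y (φ t)) atTop (𝓝 0) := by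
  have : ∀ i ∈ Finset.range (n + 1), Tendsto (fun t => (n.descFactorial i : ℂ) * F (i + 1) (φ t) *
      y ^ i * (x - (φ t : ℂ) * y) ^ (n - i)) atTop (𝓝 0) := by
    intro i _
    obtain ⟨c, hc, hG⟩ := hF.decay i
    have := (tendsto_mul_pow_of_path hc hG (n - i) x y him hre).const_mul
      ((n.descFactorial i : ℂ) * y ^ i)
    rw [mul_zero] at this
    refine this.congr fun t => by ring
  simpa [Phi] using tendsto_finsetSum _ this


theorem IsTower.tendsto_zero {F : ℕ → ℍ → ℂ} (hF : IsTower F) (i : ℕ) :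
    Tendsto (F (i + 1)) atImInfty (𝓝 0) := by
  obtain ⟨c, hc, hG⟩ := hF.decay i
  refine hG.trans_tendsto ?_
  have h1 : Tendsto (fun τ : ℍ => c * τ.im) atImInfty atTop :=
    (tendsto_comap (f := UpperHalfPlane.im) (x := atTop)).const_mul_atTop hc
  refine (Real.tendsto_exp_neg_atTop_nhds_zero.comp h1).congr fun τ => ?_
  simp

theorem IsTower.ext {F F' : ℕ → ℍ → ℂ} (hF : IsTower F) (hF' : IsTower F') (h0 : F 0 = F' 0) :
    F = F' := by
  funext i
  induction i with
  | zero => exact h0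
  | succ i ih =>
    have hG : ∀ τ : ℍ, HasDerivAt ((F (i + 1) - F' (i + 1)) ∘ ofComplex) 0 τ := by
      intro τ
      have := (hF.hasDerivAt i τ).sub (hF'.hasDerivAt i τ)
      rw [ih, sub_self] at this
      exact this
    have hlim : Tendsto (F (i + 1) - F' (i + 1)) atImInfty (𝓝 0) := by
      have := (hF.tendsto_zero i).sub (hF'.tendsto_zero i)
      rw [sub_zero] at this
      exact this
    funext τ
    have h1 : (F (i + 1) - F' (i + 1)) = fun _ => (F (i + 1) - F' (i + 1)) τ :=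
      funext fun τ' => eq_of_hasDerivAt_zero hG _ _
    rw [h1] at hlim
    have := tendsto_nhds_unique tendsto_const_nhds hlim
    simpa [sub_eq_zero] using this

theorem IsTower.add {F F' : ℕ → ℍ → ℂ} (hF : IsTower F) (hF' : IsTower F') :
    IsTower (F + F') where
  hasDerivAt i τ := (hF.hasDerivAt i τ).add (hF'.hasDerivAt i τ)
  decay i := by
    obtain ⟨c, hc, hG⟩ := hF.decay i
    obtain ⟨c', hc', hG'⟩ := hF'.decay i
    refine ⟨min c c', lt_min hc hc', ?_⟩
    have key : ∀ {a : ℝ}, min c c' ≤ a → (fun τ : ℍ => Real.exp (-a * τ.im)) =O[atImInfty]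
        fun τ : ℍ => Real.exp (-(min c c') * τ.im) := by
      intro a ha
      refine IsBigO.of_bound 1 (Eventually.of_forall fun τ => ?_)
      rw [Real.norm_eq_abs, Real.norm_eq_abs, abs_of_pos (Real.exp_pos _),
        abs_of_pos (Real.exp_pos _), one_mul]
      apply Real.exp_le_exp.mpr
      have := τ.im_pos
      nlinarith
    exact (hG.trans (key (min_le_left _ _))).add (hG'.trans (key (min_le_right _ _)))

theorem IsTower.smul (c : ℂ) {F : ℕ → ℍ → ℂ} (hF : IsTower F) : IsTower (c • F) where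
  hasDerivAt i τ := (hF.hasDerivAt i τ).const_mul c
  decay i := by
    obtain ⟨a, ha, hG⟩ := hF.decay i
    exact ⟨a, ha, hG.const_mul_left c⟩

theorem towerOf_zero {f : ℍ → ℂ} (h : HasTower f) : towerOf f 0 = f := by
  rw [towerOf, dif_pos h]; exact h.choose_spec.1

theorem isTower_towerOf {f : ℍ → ℂ} (h : HasTower f) : IsTower (towerOf f) := by
  rw [towerOf, dif_pos h]; exact h.choose_spec.2

theorem towerOf_eq {F : ℕ → ℍ → ℂ} (hF : IsTower F) : towerOf (F 0) = F :=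
  have h : HasTower (F 0) := ⟨F, rfl, hF⟩
  (isTower_towerOf h).ext hF (towerOf_zero h)

theorem towerOf_eq' {F : ℕ → ℍ → ℂ} {f : ℍ → ℂ} (hF : IsTower F) (h0 : F 0 = f) :
    towerOf f = F := h0 ▸ towerOf_eq hF

theorem HasTower.add {f g : ℍ → ℂ} (hf : HasTower f) (hg : HasTower g) : HasTower (f + g) :=
  ⟨towerOf f + towerOf g, by rw [Pi.add_apply, towerOf_zero hf, towerOf_zero hg],
    (isTower_towerOf hf).add (isTower_towerOf hg)⟩

theorem HasTower.smul (c : ℂ) {f : ℍ → ℂ} (hf : HasTower f) : HasTower (c • f) :=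
  ⟨c • towerOf f, by rw [Pi.smul_apply, towerOf_zero hf], (isTower_towerOf hf).smul c⟩

theorem towerOf_add {f g : ℍ → ℂ} (hf : HasTower f) (hg : HasTower g) :
    towerOf (f + g) = towerOf f + towerOf g :=
  towerOf_eq' ((isTower_towerOf hf).add (isTower_towerOf hg))
    (by rw [Pi.add_apply, towerOf_zero hf, towerOf_zero hg])

theorem towerOf_smul (c : ℂ) {f : ℍ → ℂ} (hf : HasTower f) :
    towerOf (c • f) = c • towerOf f :=
  towerOf_eq' ((isTower_towerOf hf).smul c) (by rw [Pi.smul_apply, towerOf_zero hf])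

end Fermat.Agent.S22
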