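import Fermat.Agent.S22.Calculus

set_option autoImplicit false

namespace Fermat.Agent.S22

open UpperHalfPlane Complex Filter Topology Asymptotics
open scoped MatrixGroups ModularForm Manifold

/-- Two primitives of the same thing differ by a constant: general comparison. -/
theorem Phi_smul_sub_const {F F' : ℕ → ℍ → ℂ} (hF : IsTower F) (hF' : IsTower F') (n : ℕ)
    (g : GL (Fin 2) ℝ) (hg : 0 < g.val.det) (h0 : F 0 ∣[(n : ℤ) + 2] g = F' 0) (x y : ℂ)
    (τ τ' : ℍ) :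
    Phi n F (actX g x y) (actY g x y) (g • τ) - Phi n F' x y τ =
      Phi n F (actX g x y) (actY g x y) (g • τ') - Phi n F' x y τ' := by
  refine eq_of_hasDerivAt_zero
    (G := fun τ => Phi n F (actX g x y) (actY g x y) (g • τ) - Phi n F' x y τ) (fun σ => ?_) τ τ'
  have := (Phi_smul_hasDerivAt hF n g hg x y σ).sub (Phi_hasDerivAt hF' n x y σ)
  rw [h0, sub_self] at this
  exact this

theorem cyc_eq {n : ℕ} {f : ℍ → ℂ} {g : GL (Fin 2) ℝ} (hf : HasTower f) (hg : 0 < g.val.det)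
    (hinv : f ∣[(n : ℤ) + 2] g = f) (x y : ℂ) (τ : ℍ) :
    Phi n (towerOf f) (actX g x y) (actY g x y) (g • τ) - Phi n (towerOf f) x y τ =
      cyc n f g x y :=
  Phi_smul_sub_const (isTower_towerOf hf) (isTower_towerOf hf) n g hg
    (by rw [towerOf_zero hf, hinv]) x y τ UpperHalfPlane.I

theorem cyc_one (n : ℕ) (f : ℍ → ℂ) (x y : ℂ) : cyc n f 1 x y = 0 := by
  simp [cyc]

theorem cyc_mul {n : ℕ} {f : ℍ → ℂ} {g g' : GL (Fin 2) ℝ} (hf : HasTower f)
    (hg : 0 < g.val.det) (hinv : f ∣[(n : ℤ) + 2] g = f) (x y : ℂ) :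
    cyc n f (g * g') x y = cyc n f g (actX g' x y) (actY g' x y) + cyc n f g' x y := by
  rw [← cyc_eq hf hg hinv (actX g' x y) (actY g' x y) (g' • UpperHalfPlane.I)]
  simp only [cyc, actX_mul, actY_mul, mul_smul]
  ring

theorem cyc_add (n : ℕ) {f f' : ℍ → ℂ} (hf : HasTower f) (hf' : HasTower f')
    (g : GL (Fin 2) ℝ) (x y : ℂ) : cyc n (f + f') g x y = cyc n f g x y + cyc n f' g x y := by
  simp only [cyc, towerOf_add hf hf', Phi_add]
  ring

theorem cyc_smul (n : ℕ) (c : ℂ) {f : ℍ → ℂ} (hf : HasTower f)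
    (g : GL (Fin 2) ℝ) (x y : ℂ) : cyc n (c • f) g x y = c * cyc n f g x y := by
  simp only [cyc, towerOf_smul c hf, Phi_smul]
  ring

end Fermat.Agent.S22
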