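import Mathlib
import Fermat.Prelude.Def_CuspForm_HeckeAlgebra

set_option autoImplicit false

namespace Fermat.Agent.S22

open UpperHalfPlane Complex Filter Topology Asymptotics
open scoped MatrixGroups ModularForm Manifold

noncomputable section

/-- `Phi n F x y τ` is a primitive (in `τ`) of `F 0 τ * (x - τ y) ^ n`,
when `F` is a sequence of successive primitives. -/
def Phi (n : ℕ) (F : ℕ → ℍ → ℂ) (x y : ℂ) (τ : ℍ) : ℂ :=
  ∑ i ∈ Finset.range (n + 1),
    (n.descFactorial i : ℂ) * F (i + 1) τ * y ^ i * (x - (τ : ℂ) * y) ^ (n - i)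

/-- A sequence of successive primitives, all (except the zeroth) decaying exponentially. -/
structure IsTower (F : ℕ → ℍ → ℂ) : Prop where
  hasDerivAt : ∀ (i : ℕ) (τ : ℍ), HasDerivAt (F (i + 1) ∘ ofComplex) (F i τ) (τ : ℂ)
  decay : ∀ i : ℕ, ∃ c : ℝ, 0 < c ∧ F (i + 1) =O[atImInfty] fun τ : ℍ => Real.exp (-c * τ.im)

/-- First coordinate of `g • (x, y)`. -/
def actX (g : GL (Fin 2) ℝ) (x y : ℂ) : ℂ := ((g 0 0 : ℝ) : ℂ) * x + ((g 0 1 : ℝ) : ℂ) * y

/-- Second coordinate of `g • (x, y)`. -/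
def actY (g : GL (Fin 2) ℝ) (x y : ℂ) : ℂ := ((g 1 0 : ℝ) : ℂ) * x + ((g 1 1 : ℝ) : ℂ) * y

/-- `f` is the bottom of some sequence of successive primitives. -/
def HasTower (f : ℍ → ℂ) : Prop := ∃ F : ℕ → ℍ → ℂ, F 0 = f ∧ IsTower F

open Classical in
/-- The (unique) sequence of successive primitives above `f`. -/
def towerOf (f : ℍ → ℂ) : ℕ → ℍ → ℂ :=
  if h : HasTower f then h.choose else fun _ _ => 0

/-- The period cocycle. -/
def cyc (n : ℕ) (f : ℍ → ℂ) (g : GL (Fin 2) ℝ) (x y : ℂ) : ℂ :=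
  Phi n (towerOf f) (actX g x y) (actY g x y) (g • UpperHalfPlane.I) -
    Phi n (towerOf f) x y UpperHalfPlane.I

end

end Fermat.Agent.S22
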