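import Fermat.Agent.S22.Defs
import Fermat.Prelude.Thm_Subgroup_IsArithmetic_exists_nat_mem_strictPeriods_conj

set_option autoImplicit false

namespace Fermat.Agent.S22

open UpperHalfPlane hiding I
open Complex Filter Topology Asymptotics Function Metric Set
open scoped MatrixGroups ModularForm Manifold Real

local notation "𝕢" => Periodic.qParam

theorem hasDerivAt_qParam (h : ℝ) (z : ℂ) :
    HasDerivAt (𝕢 h) (2 * π * I / h * 𝕢 h z) z := by
  unfold Periodic.qParam
  have h1 : HasDerivAt (fun z : ℂ => 2 * π * I * z / h) (2 * π * I / h) z := by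
    have := ((hasDerivAt_id z).const_mul (2 * π * I)).div_const (h : ℂ)
    simpa using this
  have h2 := h1.cexp
  rwa [mul_comm (cexp _)] at h2

theorem qParam_add_period {h : ℝ} (hh : h ≠ 0) (z : ℂ) : 𝕢 h (z + h) = 𝕢 h z := by
  unfold Periodic.qParam
  have hh' : (h : ℂ) ≠ 0 := by exact_mod_cast hh
  have : 2 * π * I * (z + h) / h = 2 * π * I * z / h + 2 * π * I := by
    field_simp
  rw [this, Complex.exp_add, Complex.exp_two_pi_mul_I, mul_one]

/-- Transfer: a function on `ℍ` given by a formula on `ℂ`. -/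
theorem hasDerivAt_comp_ofComplex {G : ℍ → ℂ} {g : ℂ → ℂ} (hG : ∀ τ : ℍ, G τ = g τ) {d : ℂ}
    (τ : ℍ) (hg : HasDerivAt g d τ) : HasDerivAt (G ∘ ofComplex) d τ := by
  refine hg.congr_of_eventuallyEq ?_
  have : {z : ℂ | 0 < z.im} ∈ 𝓝 (τ : ℂ) :=
    (isOpen_lt continuous_const Complex.continuous_im).mem_nhds τ.2
  filter_upwards [this] with z hz
  simp only [comp_apply, ofComplex_apply_of_im_pos hz, hG]

theorem exists_primitive {h : ℝ} (hh : 0 < h) {f : ℍ → ℂ}
    (hper : Function.Periodic (f ∘ ofComplex) h) (hhol : MDiff f) (hzero : IsZeroAtImInfty f) :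
    ∃ G : ℍ → ℂ, (∀ τ : ℍ, HasDerivAt (G ∘ ofComplex) (f τ) τ) ∧
      Function.Periodic (G ∘ ofComplex) h ∧ MDiff G ∧ IsZeroAtImInfty G := by
  have hbdd : IsBoundedAtImInfty f := hzero.boundedAtFilter
  have hh' : (h : ℂ) ≠ 0 := by exact_mod_cast hh.ne'
  set φ := cuspFunction h f with hφ
  have hφd : DifferentiableOn ℂ φ (ball 0 1) := differentiableOn_cuspFunction_ball hh hper hhol hbdd
  have hφ0 : φ 0 = 0 := by
    rw [hφ, cuspFunction_apply_zero hh (analyticAt_cuspFunction_zero hh hper hhol hbdd) hper,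
      hzero.valueAtInfty_eq_zero]
  have hψd : DifferentiableOn ℂ (dslope φ 0) (ball 0 1) :=
    (differentiableOn_dslope (isOpen_ball.mem_nhds (mem_ball_self one_pos))).mpr hφd
  obtain ⟨Γ, hΓ0, hΓ⟩ := (hψd.isExactOn_ball).with_val_at 0 0
  have hder : ∀ τ : ℍ, HasDerivAt
      ((fun τ : ℍ => (h / (2 * π * I)) * Γ (𝕢 h τ)) ∘ ofComplex) (f τ) τ := by
    intro τ
    refine hasDerivAt_comp_ofComplex (g := fun z : ℂ => (h / (2 * π * I)) * Γ (𝕢 h z))
      (fun _ => rfl) τ ?_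
    have hq1 : 𝕢 h τ ∈ ball (0 : ℂ) 1 := by
      simpa using Periodic.norm_qParam_lt_one hh τ.2
    have hq0 : 𝕢 h (τ : ℂ) ≠ 0 := Periodic.qParam_ne_zero _
    have h1 := ((hΓ _ hq1).comp (τ : ℂ) (hasDerivAt_qParam h τ)).const_mul (h / (2 * π * I))
    have h2 : (h / (2 * π * I)) * (dslope φ 0 (𝕢 h τ) * (2 * π * I / h * 𝕢 h τ)) = f τ := by
      rw [dslope_of_ne _ hq0, slope_def_field, hφ0, hφ, eq_cuspFunction τ hh.ne' hper]
      have hpi : (π : ℂ) ≠ 0 := by exact_mod_cast Real.pi_ne_zero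
      field_simp
      simp
    rw [h2] at h1
    exact h1
  refine ⟨fun τ => (h / (2 * π * I)) * Γ (𝕢 h τ), hder, ?_, ?_, ?_⟩
  · intro z
    by_cases hz : 0 < z.im
    · have hz' : 0 < (z + h).im := by simpa using hz
      simp only [comp_apply, ofComplex_apply_of_im_pos hz, ofComplex_apply_of_im_pos hz']
      show _ * Γ (𝕢 h (z + h)) = _ * Γ (𝕢 h z)
      rw [qParam_add_period hh.ne']
    · have hz1 : z.im ≤ 0 := not_lt.mp hz
      have hz' : (z + h).im ≤ 0 := by simpa using hz1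
      simp only [comp_apply, ofComplex_apply_of_im_nonpos hz1, ofComplex_apply_of_im_nonpos hz']
  · intro τ
    exact mdifferentiableAt_iff.mpr (hder τ).differentiableAt
  · have hc : ContinuousAt Γ 0 := (hΓ 0 (mem_ball_self one_pos)).continuousAt
    have h1 : Tendsto (fun τ : ℍ => Γ (𝕢 h τ)) atImInfty (𝓝 0) := by
      have := hc.tendsto.comp (qParam_tendsto_atImInfty hh)
      rwa [hΓ0] at this
    have := h1.const_mul (h / (2 * π * I))
    rw [mul_zero] at this
    exact this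

/-- The class of functions stable under taking primitives. -/
def Good (h : ℝ) (f : ℍ → ℂ) : Prop :=
  Function.Periodic (f ∘ ofComplex) h ∧ MDiff f ∧ IsZeroAtImInfty f

/-- One step of the recursion. -/
noncomputable def nextGood {h : ℝ} (hh : 0 < h) (f : {f : ℍ → ℂ // Good h f}) :
    {f : ℍ → ℂ // Good h f} :=
  ⟨(exists_primitive hh f.2.1 f.2.2.1 f.2.2.2).choose,
    (exists_primitive hh f.2.1 f.2.2.1 f.2.2.2).choose_spec.2⟩

theorem nextGood_hasDerivAt {h : ℝ} (hh : 0 < h) (f : {f : ℍ → ℂ // Good h f}) (τ : ℍ) :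
    HasDerivAt ((nextGood hh f).1 ∘ ofComplex) (f.1 τ) τ :=
  (exists_primitive hh f.2.1 f.2.2.1 f.2.2.2).choose_spec.1 τ

theorem exists_tower {h : ℝ} (hh : 0 < h) {f : ℍ → ℂ}
    (hper : Function.Periodic (f ∘ ofComplex) h) (hhol : MDiff f) (hzero : IsZeroAtImInfty f) :
    ∃ F : ℕ → ℍ → ℂ, F 0 = f ∧ IsTower F ∧
      ∀ i, Function.Periodic (F i ∘ ofComplex) h ∧ MDiff (F i) ∧ IsZeroAtImInfty (F i) := by
  let F : ℕ → {f : ℍ → ℂ // Good h f} := fun n => (nextGood hh)^[n] ⟨f, hper, hhol, hzero⟩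
  have hF : ∀ n, F (n + 1) = nextGood hh (F n) := fun n => Function.iterate_succ_apply' _ _ _
  refine ⟨fun n => (F n).1, rfl, ⟨fun i τ => ?_, fun i => ?_⟩, fun i => (F i).2⟩
  · show HasDerivAt ((F (i + 1)).1 ∘ ofComplex) ((F i).1 τ) τ
    rw [hF]
    exact nextGood_hasDerivAt hh (F i) τ
  · refine ⟨2 * π / h, by positivity, ?_⟩
    have := (F (i + 1)).2.2.2.exp_decay_atImInfty hh (F (i + 1)).2.1 (F (i + 1)).2.2.1
      (F (i + 1)).2.2.2.boundedAtFilter
    refine this.congr_right fun τ => ?_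
    congr 1
    ring

/-- Cusp forms for arithmetic subgroups: the sequence of primitives exists, with period any
positive strict period. -/
theorem exists_tower_cuspForm {Γ : Subgroup (GL (Fin 2) ℝ)} [Γ.IsArithmetic] {k : ℤ}
    (f : CuspForm Γ k) {h : ℝ} (hh : 0 < h) (hΓ : h ∈ Γ.strictPeriods) :
    ∃ F : ℕ → ℍ → ℂ, F 0 = f ∧ IsTower F ∧
      ∀ i, Function.Periodic (F i ∘ ofComplex) h ∧ MDiff (F i) ∧ IsZeroAtImInfty (F i) :=
  exists_tower hh (SlashInvariantFormClass.periodic_comp_ofComplex f hΓ) (CuspFormClass.holo f)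
    (CuspFormClass.zero_at_infty f)

theorem hasTower_cuspForm {Γ : Subgroup (GL (Fin 2) ℝ)} [Γ.IsArithmetic] {k : ℤ}
    (f : CuspForm Γ k) : HasTower f := by
  obtain ⟨M, hM, hper⟩ := Subgroup.IsArithmetic.exists_nat_mem_strictPeriods_conj Γ
  have h1 : (M : ℝ) ∈ Γ.strictPeriods := by simpa using hper 1
  obtain ⟨F, hF0, hF, -⟩ := exists_tower_cuspForm f (h := M) (by exact_mod_cast hM) h1
  exact ⟨F, hF0, hF⟩

end Fermat.Agent.S22
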