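import Fermat.Agent.S22.Cocycle
import Fermat.Agent.S22.Tower

set_option autoImplicit false

namespace Fermat.Agent.S22

open UpperHalfPlane Complex Filter Topology Asymptotics Matrix.SpecialLinearGroup
open scoped MatrixGroups ModularForm Manifold

noncomputable section

/-- The period functional `f ↦ cyc n f g x y`. -/
def cycLin (N n : ℕ) [NeZero N] (g : GL (Fin 2) ℝ) (x y : ℂ) :
    CuspForm (CongruenceSubgroup.Gamma0 N) ((n : ℤ) + 2) →ₗ[ℂ] ℂ where
  toFun f := cyc n f g x y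
  map_add' f f' := by
    rw [CuspForm.coe_add]
    exact cyc_add n (hasTower_cuspForm f) (hasTower_cuspForm f') g x y
  map_smul' c f := by
    have : (⇑(c • f) : ℍ → ℂ) = c • ⇑f := rfl
    rw [this]
    exact cyc_smul n c (hasTower_cuspForm f) g x y

@[simp] theorem cycLin_apply (N n : ℕ) [NeZero N] (g : GL (Fin 2) ℝ) (x y : ℂ)
    (f : CuspForm (CongruenceSubgroup.Gamma0 N) ((n : ℤ) + 2)) :
    cycLin N n g x y f = cyc n f g x y := rfl

/-- The lattice of periods inside the dual of the space of cusp forms. -/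
def periodLattice (N n : ℕ) [NeZero N] :
    Submodule ℤ (CuspForm (CongruenceSubgroup.Gamma0 N) ((n : ℤ) + 2) →ₗ[ℂ] ℂ) :=
  Submodule.span ℤ {l | ∃ γ ∈ CongruenceSubgroup.Gamma0 N, ∃ a b : ℤ,
    l = cycLin N n (mapGL ℝ γ) a b}

theorem cycLin_mem_periodLattice (N n : ℕ) [NeZero N] {γ : SL(2, ℤ)}
    (hγ : γ ∈ CongruenceSubgroup.Gamma0 N) (a b : ℤ) :
    cycLin N n (mapGL ℝ γ) a b ∈ periodLattice N n :=
  Submodule.subset_span ⟨γ, hγ, a, b, rfl⟩

end

end Fermat.Agent.S22
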